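/-
S55 (Poitou–Tate), layer G, leaf G-PL1 (`PlacePrimeSpec`) — helper597.
Part 1: local structure of `L_𝔪 = (L ⊗ ℚ_S) ⧸ 𝔪`: the unique `q ∈ S` below `𝔪`, the embedding
`ℚ_q → L_𝔪`, finite-dimensionality, the ring of integers `intA 𝔪` and its characterisation by
integrality over `ℤ_S = ∏_{q ∈ S} ℤ_q`.
-/
import Fermat.Agent.S55.G.Spec
import Fermat.Agent.S55.L.Inst63
import Fermat.Agent.S55.L.FiniteExt286
import Fermat.Agent.S55.L.RingOfIntegersUnique775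

set_option autoImplicit false
set_option linter.unusedSectionVars false
set_option linter.style.haveILetI false
set_option linter.unusedSimpArgs false
set_option backward.isDefEq.respectTransparency false

open scoped NumberField TensorProduct
open IsDedekindDomain Polynomial

noncomputable section

namespace Fermat.Agent.S55.G.PL1H597

open Fermat.Agent.S55.G

variable (S : Finset Nat.Primes) {L : Type} [Field L] [CharZero L]

/-- The idempotent of `ℚ_S` cutting out the factor `ℚ_q`. -/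
def idem (q : S) : QS S := (QS.toPi S).symm (Pi.single q 1)

/-- The inclusion of the factor `ℚ_q` into `ℚ_S` (additive and multiplicative, not unital). -/
def inclQ (q : S) (a : Qq q.1) : QS S := (QS.toPi S).symm (Pi.single q a)

lemma inclQ_apply_same (q : S) (a : Qq q.1) : QS.toPi S (inclQ S q a) q = a := by
  simp [inclQ]

lemma inclQ_apply_ne (q q' : S) (h : q' ≠ q) (a : Qq q.1) : QS.toPi S (inclQ S q a) q' = 0 := by
  simp [inclQ, Pi.single_eq_of_ne h]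

lemma inclQ_one (q : S) : inclQ S q 1 = idem S q := rfl

lemma inclQ_zero (q : S) : inclQ S q 0 = 0 := by
  simp [inclQ]

lemma inclQ_add (q : S) (a b : Qq q.1) : inclQ S q (a + b) = inclQ S q a + inclQ S q b := by
  simp [inclQ, Pi.single_add]

lemma inclQ_mul (q : S) (a b : Qq q.1) : inclQ S q (a * b) = inclQ S q a * inclQ S q b := by
  apply (QS.toPi S).injective
  funext q'
  by_cases h : q' = q
  · subst h
    simp [inclQ]
  · simp [inclQ, Pi.single_eq_of_ne h]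

lemma mul_idem (q : S) (z : QS S) : z * idem S q = inclQ S q (QS.toPi S z q) := by
  apply (QS.toPi S).injective
  funext q'
  by_cases h : q' = q
  · subst h
    simp [inclQ, idem]
  · simp [inclQ, idem, Pi.single_eq_of_ne h]

lemma sum_idem : ∑ q : S, idem S q = 1 := by
  apply (QS.toPi S).injective
  funext q'
  simp [idem, Finset.sum_apply]

/-! ### The rational prime below a place -/

variable {S}

/-- The place `𝔪` lies over `q ∈ S`: the idempotent of `q` is not in `𝔪`. -/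
def Over (𝔪 : SPlace S L) (q : S) : Prop := LocField.ofQS S 𝔪 (idem S q) = 1

lemma ofQS_idem_eq_zero_or_one (𝔪 : SPlace S L) (q : S) :
    LocField.ofQS S 𝔪 (idem S q) = 0 ∨ LocField.ofQS S 𝔪 (idem S q) = 1 := by
  have h : idem S q * idem S q = idem S q := by
    rw [mul_idem]
    simp [idem, inclQ]
  have h2 := congrArg (LocField.ofQS S 𝔪) h
  rw [map_mul] at h2
  rcases eq_or_ne (LocField.ofQS S 𝔪 (idem S q)) 0 with h0 | h0
  · exact Or.inl h0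
  · right
    exact mul_left_cancel₀ h0 (by rw [h2, mul_one])

lemma exists_over (𝔪 : SPlace S L) : ∃ q : S, Over 𝔪 q := by
  by_contra hcon
  push Not at hcon
  have h0 : ∀ q : S, LocField.ofQS S 𝔪 (idem S q) = 0 := fun q =>
    (ofQS_idem_eq_zero_or_one 𝔪 q).resolve_right (hcon q)
  have h1 := congrArg (LocField.ofQS S 𝔪) (sum_idem S)
  rw [map_sum, map_one, Finset.sum_eq_zero (fun q _ => h0 q)] at h1
  exact zero_ne_one h1

lemma over_unique {𝔪 : SPlace S L} {q q' : S} (h : Over 𝔪 q) (h' : Over 𝔪 q') : q = q' := by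
  by_contra hne
  have h0 : idem S q * idem S q' = 0 := by
    rw [mul_idem]
    simp [idem, inclQ, Pi.single_eq_of_ne (Ne.symm hne)]
  have h2 := congrArg (LocField.ofQS S 𝔪) h0
  rw [map_mul, h, h', map_zero, mul_one] at h2
  exact one_ne_zero h2

lemma ofQS_eq_of_over {𝔪 : SPlace S L} {q : S} (h : Over 𝔪 q) (z : QS S) :
    LocField.ofQS S 𝔪 z = LocField.ofQS S 𝔪 (inclQ S q (QS.toPi S z q)) := by
  rw [← mul_idem, map_mul, h, mul_one]

/-- The rational prime `q ∈ S` below the place `𝔪`. -/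
def qAt (𝔪 : SPlace S L) : S := (exists_over 𝔪).choose

lemma over_qAt (𝔪 : SPlace S L) : Over 𝔪 (qAt 𝔪) := (exists_over 𝔪).choose_spec

lemma eq_qAt {𝔪 : SPlace S L} {q : S} (h : Over 𝔪 q) : q = qAt 𝔪 := over_unique h (over_qAt 𝔪)

/-- The embedding `ℚ_q → L_𝔪` for a prime `q` below `𝔪`. -/
def ofQq (𝔪 : SPlace S L) (q : S) (h : Over 𝔪 q) : Qq q.1 →+* LocField S 𝔪 where
  toFun a := LocField.ofQS S 𝔪 (inclQ S q a)
  map_one' := by rw [inclQ_one]; exact h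
  map_mul' a b := by rw [inclQ_mul, map_mul]
  map_zero' := by rw [inclQ_zero, map_zero]
  map_add' a b := by rw [inclQ_add, map_add]

lemma ofQq_apply (𝔪 : SPlace S L) (q : S) (h : Over 𝔪 q) (a : Qq q.1) :
    ofQq 𝔪 q h a = LocField.ofQS S 𝔪 (inclQ S q a) := rfl

lemma ofQS_eq_ofQq {𝔪 : SPlace S L} {q : S} (h : Over 𝔪 q) (z : QS S) :
    LocField.ofQS S 𝔪 z = ofQq 𝔪 q h (QS.toPi S z q) :=
  ofQS_eq_of_over h z

lemma mk_tmul (𝔪 : SPlace S L) (x : L) (z : QS S) :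
    LocField.mk S 𝔪 (x ⊗ₜ[ℚ] z) = toLoc S 𝔪 x * LocField.ofQS S 𝔪 z := by
  have : (x ⊗ₜ[ℚ] z : AS S L) = asDiag S L x * asIncl S L z := by
    simp [asIncl]
  rw [this, map_mul]
  rfl

instance instCharZeroLocField (𝔪 : SPlace S L) : CharZero (LocField S 𝔪) :=
  charZero_of_injective_ringHom (toLoc S 𝔪).injective

/-! ### `L_𝔪` is a finite extension of `ℚ_q` -/

/-- The `ℚ_q`-algebra structure of `L_𝔪` (a definition, not an instance). -/
@[reducible] def algQq (𝔪 : SPlace S L) (q : S) (h : Over 𝔪 q) : Algebra (Qq q.1) (LocField S 𝔪) :=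
  (ofQq 𝔪 q h).toAlgebra

/-- `toLoc` as a `ℚ`-algebra homomorphism. -/
def toLocAlg (𝔪 : SPlace S L) : L →ₐ[ℚ] LocField S 𝔪 :=
  { toLoc S 𝔪 with commutes' := fun r => map_ratCast (toLoc S 𝔪) r }

@[simp] lemma toLocAlg_apply (𝔪 : SPlace S L) (x : L) : toLocAlg 𝔪 x = toLoc S 𝔪 x := rfl

lemma finiteDimensional_locField [FiniteDimensional ℚ L] (𝔪 : SPlace S L) (q : S) (h : Over 𝔪 q) :
    letI := algQq 𝔪 q h
    FiniteDimensional (Qq q.1) (LocField S 𝔪) := by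
  letI := algQq 𝔪 q h
  let Ψ : Qq q.1 ⊗[ℚ] L →ₐ[Qq q.1] LocField S 𝔪 :=
    Algebra.TensorProduct.lift (Algebra.ofId (Qq q.1) (LocField S 𝔪)) (toLocAlg 𝔪)
      (fun _ _ => Commute.all _ _)
  have hΨ : ∀ (a : Qq q.1) (x : L), Ψ (a ⊗ₜ[ℚ] x) = ofQq 𝔪 q h a * toLoc S 𝔪 x := by
    intro a x
    simp only [Ψ, Algebra.TensorProduct.lift_tmul]
    rfl
  have hsurj : Function.Surjective Ψ := by
    intro y
    obtain ⟨z, rfl⟩ := LocField.mk_surjective S 𝔪 y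
    induction z using TensorProduct.induction_on with
    | zero => exact ⟨0, by simp⟩
    | tmul x a =>
      refine ⟨(QS.toPi S a q) ⊗ₜ[ℚ] x, ?_⟩
      rw [hΨ, mk_tmul, ofQS_eq_ofQq h, mul_comm]
    | add z₁ z₂ h₁ h₂ =>
      obtain ⟨w₁, hw₁⟩ := h₁
      obtain ⟨w₂, hw₂⟩ := h₂
      exact ⟨w₁ + w₂, by rw [map_add, map_add, hw₁, hw₂]⟩
  exact Module.Finite.of_surjective Ψ.toLinearMap hsurj

/-! ### The ring of integers of `L_𝔪` -/

/-- `ℤ_q` as a valuation subring of `ℚ_q`. -/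
def Zq (q : Nat.Primes) : ValuationSubring (Qq q) := S55.L.unitBall63 (Qq q)

lemma mem_Zq (q : Nat.Primes) (a : Qq q) : a ∈ Zq q ↔ ‖a‖ ≤ 1 := S55.L.mem_unitBall63 (Qq q) a

lemma isLocalRingOfIntegers_Zq (q : Nat.Primes) : S55.L.IsLocalRingOfIntegers (Zq q) :=
  S55.L.isLocalRingOfIntegers_unitBall63 (Qq q)

/-- The structure map `ℤ_q → L_𝔪`. -/
def zqHom (𝔪 : SPlace S L) (q : S) (h : Over 𝔪 q) : Zq q.1 →+* LocField S 𝔪 :=
  (ofQq 𝔪 q h).comp (Zq q.1).subtype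

lemma exists_intA [FiniteDimensional ℚ L] (𝔪 : SPlace S L) (q : S) (h : Over 𝔪 q) :
    ∃ B : ValuationSubring (LocField S 𝔪), S55.L.IsLocalRingOfIntegers B ∧
      (∀ y : LocField S 𝔪, y ∈ B ↔ (zqHom 𝔪 q h).IsIntegralElem y) ∧
      (∀ a : Qq q.1, ofQq 𝔪 q h a ∈ B ↔ a ∈ Zq q.1) := by
  letI := algQq 𝔪 q h
  haveI := finiteDimensional_locField 𝔪 q h
  letI : Algebra (Zq q.1) (LocField S 𝔪) := (zqHom 𝔪 q h).toAlgebra
  haveI : IsScalarTower (Zq q.1) (Qq q.1) (LocField S 𝔪) :=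
    IsScalarTower.of_algebraMap_eq (fun _ => rfl)
  obtain ⟨B, hB, h1, h2⟩ := S55.L.exists_ringOfIntegers_eq_integralClosure286
    (K := Qq q.1) (L := LocField S 𝔪) (Zq q.1) (isLocalRingOfIntegers_Zq q.1)
  exact ⟨B, hB, h1, h2⟩

variable [FiniteDimensional ℚ L]

/-- The ring of integers of `L_𝔪`. -/
def intA (𝔪 : SPlace S L) : ValuationSubring (LocField S 𝔪) :=
  (exists_intA 𝔪 (qAt 𝔪) (over_qAt 𝔪)).choose

lemma intA_spec (𝔪 : SPlace S L) : S55.L.IsLocalRingOfIntegers (intA 𝔪) :=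
  (exists_intA 𝔪 (qAt 𝔪) (over_qAt 𝔪)).choose_spec.1

lemma mem_intA_iff_zq (𝔪 : SPlace S L) (q : S) (h : Over 𝔪 q) (y : LocField S 𝔪) :
    y ∈ intA 𝔪 ↔ (zqHom 𝔪 q h).IsIntegralElem y := by
  obtain rfl := eq_qAt h
  exact (exists_intA 𝔪 (qAt 𝔪) (over_qAt 𝔪)).choose_spec.2.1 y

lemma ofQq_mem_intA_iff (𝔪 : SPlace S L) (q : S) (h : Over 𝔪 q) (a : Qq q.1) :
    ofQq 𝔪 q h a ∈ intA 𝔪 ↔ ‖a‖ ≤ 1 := by
  obtain rfl := eq_qAt h
  rw [← mem_Zq]
  exact (exists_intA 𝔪 (qAt 𝔪) (over_qAt 𝔪)).choose_spec.2.2 a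

instance instIsLocalFldLocField (𝔪 : SPlace S L) : S55.L.IsLocalFld (LocField S 𝔪) :=
  ⟨inferInstance, intA 𝔪, intA_spec 𝔪⟩

/-- Every ring of integers of `L_𝔪` is `intA 𝔪`. -/
lemma eq_intA (𝔪 : SPlace S L) (A : ValuationSubring (LocField S 𝔪))
    (hA : S55.L.IsLocalRingOfIntegers A) : A = intA 𝔪 :=
  S55.L.ringOfIntegersUnique775 (LocField S 𝔪) A (intA 𝔪) hA (intA_spec 𝔪)

/-! ### Integrality over `ℤ_S` -/

variable (S) in
/-- `ℤ_S = ∏_{q ∈ S} ℤ_q` as a subring of `ℚ_S`. -/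
def ZS : Subring (QS S) where
  carrier := {z | ∀ q : S, QS.toPi S z q ∈ Zq q.1}
  mul_mem' {a b} ha hb q := by
    rw [map_mul]
    exact (Zq q.1).mul_mem _ _ (ha q) (hb q)
  one_mem' q := by
    rw [map_one]
    exact (Zq q.1).one_mem
  add_mem' {a b} ha hb q := by
    rw [map_add]
    exact (Zq q.1).add_mem _ _ (ha q) (hb q)
  zero_mem' q := by
    rw [map_zero]
    exact (Zq q.1).zero_mem
  neg_mem' {a} ha q := by
    rw [map_neg]
    exact (Zq q.1).neg_mem _ (ha q)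

lemma mem_ZS (z : QS S) : z ∈ ZS S ↔ ∀ q : S, ‖QS.toPi S z q‖ ≤ 1 := by
  simp only [← mem_Zq]
  rfl

/-- The projection `ℤ_S → ℤ_q`. -/
def zsProj (q : S) : ZS S →+* Zq q.1 where
  toFun z := ⟨QS.toPi S z.1 q, z.2 q⟩
  map_one' := rfl
  map_mul' _ _ := rfl
  map_zero' := rfl
  map_add' _ _ := rfl

lemma inclQ_mem_ZS (q : S) (a : Zq q.1) : inclQ S q a.1 ∈ ZS S := by
  intro q'
  by_cases h : q' = q
  · subst h
    rw [inclQ_apply_same]
    exact a.2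
  · rw [inclQ_apply_ne S q q' h]
    exact (Zq q'.1).zero_mem

lemma zsProj_surjective (q : S) : Function.Surjective (zsProj (S := S) q) := by
  intro a
  refine ⟨⟨inclQ S q a.1, inclQ_mem_ZS q a⟩, ?_⟩
  apply Subtype.ext
  exact inclQ_apply_same S q a.1

/-- The structure map `ℤ_S → L_𝔪`. -/
def zsHom (𝔪 : SPlace S L) : ZS S →+* LocField S 𝔪 :=
  (LocField.ofQS S 𝔪).comp (ZS S).subtype

lemma zsHom_eq (𝔪 : SPlace S L) (q : S) (h : Over 𝔪 q) :
    zsHom 𝔪 = (zqHom 𝔪 q h).comp (zsProj q) := by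
  ext z
  exact ofQS_eq_ofQq h z.1

lemma mem_intA_iff (𝔪 : SPlace S L) (y : LocField S 𝔪) :
    y ∈ intA 𝔪 ↔ (zsHom 𝔪).IsIntegralElem y := by
  rw [mem_intA_iff_zq 𝔪 (qAt 𝔪) (over_qAt 𝔪), zsHom_eq 𝔪 (qAt 𝔪) (over_qAt 𝔪)]
  constructor
  · rintro ⟨f, hf, hf0⟩
    have hlift : f ∈ Polynomial.lifts (zsProj (S := S) (qAt 𝔪)) := by
      rw [Polynomial.mem_lifts]
      exact Polynomial.map_surjective _ (zsProj_surjective (qAt 𝔪)) f
    obtain ⟨F, hF, -, hFm⟩ := Polynomial.lifts_and_natDegree_eq_and_monic hlift hf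
    refine ⟨F, hFm, ?_⟩
    rw [← Polynomial.eval₂_map, hF]
    exact hf0
  · rintro ⟨F, hF, hF0⟩
    refine ⟨F.map (zsProj (qAt 𝔪)), hF.map _, ?_⟩
    rw [Polynomial.eval₂_map]
    exact hF0

variable (S L) in
/-- The structure map `ℤ_S → L ⊗ ℚ_S`. -/
def zsIncl : ZS S →+* AS S L :=
  ((asIncl S L : QS S →ₐ[ℚ] AS S L) : QS S →+* AS S L).comp (ZS S).subtype

lemma mk_comp_zsIncl (𝔪 : SPlace S L) : (LocField.mk S 𝔪).comp (zsIncl S L) = zsHom 𝔪 := rfl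

/-- `z ∈ L ⊗ ℚ_S` is integral over `ℤ_S` modulo `𝔪`. -/
def IntAS (𝔪 : SPlace S L) (z : AS S L) : Prop :=
  ∃ P : (ZS S)[X], P.Monic ∧ Polynomial.eval₂ (zsIncl S L) z P ∈ 𝔪.asIdeal

lemma mk_mem_intA_iff (𝔪 : SPlace S L) (z : AS S L) :
    LocField.mk S 𝔪 z ∈ intA 𝔪 ↔ IntAS 𝔪 z := by
  rw [mem_intA_iff]
  unfold IntAS RingHom.IsIntegralElem
  simp only [← LocField.mk_eq_zero_iff, Polynomial.hom_eval₂, mk_comp_zsIncl]

/-! ### Basic elements of `intA 𝔪` -/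

lemma ofQS_mem_intA (𝔪 : SPlace S L) (z : QS S) (hz : z ∈ ZS S) :
    LocField.ofQS S 𝔪 z ∈ intA 𝔪 := by
  rw [ofQS_eq_ofQq (over_qAt 𝔪), ofQq_mem_intA_iff, ← mem_Zq]
  exact hz (qAt 𝔪)

lemma toLoc_mem_intA_of_isIntegral (𝔪 : SPlace S L) (x : L) (hx : IsIntegral ℤ x) :
    toLoc S 𝔪 x ∈ intA 𝔪 := by
  rw [mem_intA_iff]
  obtain ⟨p, hp, hp0⟩ := hx
  refine ⟨p.map (Int.castRingHom (ZS S)), hp.map _, ?_⟩
  rw [Polynomial.eval₂_map]
  have h1 : (zsHom 𝔪).comp (Int.castRingHom (ZS S)) = (toLoc S 𝔪).comp (algebraMap ℤ L) :=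
    RingHom.ext_int _ _
  rw [h1, ← Polynomial.hom_eval₂, hp0, map_zero]

/-- Membership in the set of non-units of a valuation subring in terms of the inverse. -/
lemma mem_nonunits_iff_inv {K : Type*} [Field K] (A : ValuationSubring K) (x : K) :
    x ∈ A.nonunits ↔ x = 0 ∨ x⁻¹ ∉ A := by
  rw [ValuationSubring.mem_nonunits_iff]
  rcases eq_or_ne x 0 with rfl | hx
  · simp
  · rw [← A.valuation_le_one_iff, not_le, Valuation.one_lt_val_iff _ (inv_ne_zero hx), inv_inv]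
    simp [hx]

lemma natCast_mem_nonunits (𝔪 : SPlace S L) (q : S) (h : Over 𝔪 q) :
    (((q.1 : ℕ) : ℕ) : LocField S 𝔪) ∈ (intA 𝔪).nonunits := by
  haveI : Fact (q.1 : ℕ).Prime := ⟨q.1.2⟩
  have hq0 : (((q.1 : ℕ) : ℕ) : Qq q.1) ≠ 0 := by
    exact_mod_cast q.1.2.ne_zero
  have h1 : (((q.1 : ℕ) : ℕ) : LocField S 𝔪) = ofQq 𝔪 q h (((q.1 : ℕ) : ℕ) : Qq q.1) :=
    (map_natCast (ofQq 𝔪 q h) _).symm
  rw [mem_nonunits_iff_inv, h1, ← map_inv₀, ofQq_mem_intA_iff, norm_inv]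
  right
  rw [not_le]
  have h2 : ‖(((q.1 : ℕ) : ℕ) : Qq q.1)‖ = ((q.1 : ℕ) : ℝ)⁻¹ := Padic.norm_p
  rw [h2, inv_inv]
  exact_mod_cast q.1.2.one_lt

end Fermat.Agent.S55.G.PL1H597
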