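/-
S55 (Poitou–Tate), layer G, leaf G-PL1 (`PlacePrimeSpec`) — helper597.
Part 2: the prime `primeOf 𝔪` of `𝓞 L` below a place `𝔪` of `L ⊗ ℚ_S`; Galois equivariance;
the integers of `L_𝔪` meet `L` in the localisation of `𝓞 L` at `primeOf 𝔪`.
-/
import Fermat.Agent.S55.G.PL1H597.Base

set_option autoImplicit false
set_option linter.unusedSectionVars false
set_option linter.style.haveILetI false
set_option linter.unusedSimpArgs false
set_option backward.isDefEq.respectTransparency false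

open scoped NumberField TensorProduct
open IsDedekindDomain Polynomial

noncomputable section

namespace Fermat.Agent.S55.G.PL1H597

open Fermat.Agent.S55.G

variable {S : Finset Nat.Primes} {L : Type} [Field L] [NumberField L]

/-- The map `𝓞 L → intA 𝔪`. -/
def toInt (𝔪 : SPlace S L) : 𝓞 L →+* intA 𝔪 :=
  ((toLoc S 𝔪).comp (algebraMap (𝓞 L) L)).codRestrict (intA 𝔪).toSubring
    (fun x => toLoc_mem_intA_of_isIntegral 𝔪 _ (NumberField.RingOfIntegers.isIntegral_coe x))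

@[simp] lemma coe_toInt (𝔪 : SPlace S L) (x : 𝓞 L) :
    ((toInt 𝔪 x : intA 𝔪) : LocField S 𝔪) = toLoc S 𝔪 (x : L) := rfl

/-- The prime ideal of `𝓞 L` below `𝔪`. -/
def primeIdeal (𝔪 : SPlace S L) : Ideal (𝓞 L) :=
  (IsLocalRing.maximalIdeal (intA 𝔪)).comap (toInt 𝔪)

lemma mem_primeIdeal_iff (𝔪 : SPlace S L) (x : 𝓞 L) :
    x ∈ primeIdeal 𝔪 ↔ toLoc S 𝔪 (x : L) ∈ (intA 𝔪).nonunits := by
  rw [primeIdeal, Ideal.mem_comap, ← ValuationSubring.coe_mem_nonunits_iff, coe_toInt]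

instance isPrime_primeIdeal (𝔪 : SPlace S L) : (primeIdeal 𝔪).IsPrime :=
  Ideal.comap_isPrime _ _

lemma natCast_mem_primeIdeal (𝔪 : SPlace S L) (q : S) (h : Over 𝔪 q) :
    (((q.1 : ℕ) : ℕ) : 𝓞 L) ∈ primeIdeal 𝔪 := by
  rw [mem_primeIdeal_iff]
  have := natCast_mem_nonunits 𝔪 q h
  simpa using this

lemma primeIdeal_ne_bot (𝔪 : SPlace S L) : primeIdeal 𝔪 ≠ ⊥ := by
  intro hbot
  have h := natCast_mem_primeIdeal 𝔪 (qAt 𝔪) (over_qAt 𝔪)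
  rw [hbot, Ideal.mem_bot] at h
  have : (((qAt 𝔪).1 : ℕ) : ℕ) = 0 := by exact_mod_cast h
  exact (qAt 𝔪).1.2.ne_zero this

/-- The prime of `𝓞 L` below the place `𝔪`. -/
def primeOf (𝔪 : SPlace S L) : HeightOneSpectrum (𝓞 L) where
  asIdeal := primeIdeal 𝔪
  isPrime := isPrime_primeIdeal 𝔪
  ne_bot := primeIdeal_ne_bot 𝔪

lemma mem_primeOf_iff (𝔪 : SPlace S L) (x : 𝓞 L) :
    x ∈ (primeOf 𝔪).asIdeal ↔ toLoc S 𝔪 (x : L) ∈ (intA 𝔪).nonunits :=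
  mem_primeIdeal_iff 𝔪 x

lemma isAbove_primeOf (𝔪 : SPlace S L) : IsAbove S L (primeOf 𝔪) :=
  ⟨(qAt 𝔪).1, (qAt 𝔪).2, natCast_mem_primeIdeal 𝔪 (qAt 𝔪) (over_qAt 𝔪)⟩

/-- A prime of `𝓞 L` contains at most one rational prime. -/
lemma eq_of_natCast_mem (w : HeightOneSpectrum (𝓞 L)) {q q' : Nat.Primes}
    (h : (((q : ℕ) : ℕ) : 𝓞 L) ∈ w.asIdeal) (h' : (((q' : ℕ) : ℕ) : 𝓞 L) ∈ w.asIdeal) :
    q = q' := by
  by_contra hne
  have hcop : Nat.Coprime (q : ℕ) (q' : ℕ) :=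
    (Nat.coprime_primes q.2 q'.2).2 (fun h => hne (Subtype.ext h))
  have h1 : (1 : 𝓞 L) ∈ w.asIdeal := by
    have hb := Nat.gcd_eq_gcd_ab (q : ℕ) (q' : ℕ)
    rw [hcop.gcd_eq_one] at hb
    have hb' : (1 : 𝓞 L) = ((q : ℕ) : 𝓞 L) * ((Nat.gcdA q q' : ℤ) : 𝓞 L) +
        ((q' : ℕ) : 𝓞 L) * ((Nat.gcdB q q' : ℤ) : 𝓞 L) := by
      have := congrArg (Int.cast : ℤ → 𝓞 L) hb
      push_cast at this
      exact this
    rw [hb']
    exact w.asIdeal.add_mem (w.asIdeal.mul_mem_right _ h) (w.asIdeal.mul_mem_right _ h')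
  exact w.isPrime.ne_top ((Ideal.eq_top_iff_one _).2 h1)

lemma over_iff_mem (𝔪 : SPlace S L) (q : S) :
    Over 𝔪 q ↔ (((q.1 : ℕ) : ℕ) : 𝓞 L) ∈ (primeOf 𝔪).asIdeal := by
  constructor
  · exact fun h => natCast_mem_primeIdeal 𝔪 q h
  · intro h
    have h' := natCast_mem_primeIdeal 𝔪 (qAt 𝔪) (over_qAt 𝔪)
    have := eq_of_natCast_mem (primeOf 𝔪) h h'
    have hq : q = qAt 𝔪 := Subtype.ext this
    rw [hq]
    exact over_qAt 𝔪

/-- Membership in `primeOf 𝔪` in terms of integrality over `ℤ_S` in `L ⊗ ℚ_S`. -/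
lemma mem_primeOf_iff_intAS (𝔪 : SPlace S L) (x : 𝓞 L) :
    x ∈ (primeOf 𝔪).asIdeal ↔ x = 0 ∨ ¬ IntAS 𝔪 (asDiag S L ((x : L)⁻¹)) := by
  rw [mem_primeOf_iff, mem_nonunits_iff_inv, ← mk_mem_intA_iff]
  have h1 : LocField.mk S 𝔪 (asDiag S L ((x : L)⁻¹)) = (toLoc S 𝔪 (x : L))⁻¹ := by
    rw [← map_inv₀ (toLoc S 𝔪)]
    rfl
  rw [h1]
  have h2 : toLoc S 𝔪 (x : L) = 0 ↔ x = 0 := by
    rw [map_eq_zero]
    exact NumberField.RingOfIntegers.coe_eq_zero_iff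
  rw [h2]

/-- Compatibility with any ring of integers of `L_𝔪`. -/
lemma mem_primeOf_iff_of_isLocalRingOfIntegers (𝔪 : SPlace S L)
    (A : ValuationSubring (LocField S 𝔪)) (hA : S55.L.IsLocalRingOfIntegers A) (x : 𝓞 L) :
    x ∈ (primeOf 𝔪).asIdeal ↔ toLoc S 𝔪 (x : L) ∈ A.nonunits := by
  rw [eq_intA 𝔪 A hA]
  exact mem_primeOf_iff 𝔪 x

/-! ### Galois equivariance -/

section Equivariance

variable (G : Type) [Group G] [MulSemiringAction G L]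

lemma asAut_comp_zsIncl (g : G) (P : (ZS S)[X]) (z : AS S L) :
    asAut S G L g (Polynomial.eval₂ (zsIncl S L) z P) =
      Polynomial.eval₂ (zsIncl S L) (asAut S G L g z) P := by
  have h : ((asAut S G L g : AS S L ≃ₐ[ℚ] AS S L) : AS S L →+* AS S L).comp (zsIncl S L) =
      zsIncl S L := by
    ext z
    exact asAut_asIncl S G L g z.1
  have := Polynomial.hom_eval₂ P (zsIncl S L)
    ((asAut S G L g : AS S L ≃ₐ[ℚ] AS S L) : AS S L →+* AS S L) z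
  rw [h] at this
  exact this

lemma intAS_sPlaceSMul_iff (g : G) (𝔪 : SPlace S L) (z : AS S L) :
    IntAS (sPlaceSMul S G g 𝔪) z ↔ IntAS 𝔪 (asAut S G L g⁻¹ z) := by
  unfold IntAS
  simp only [mem_sPlaceSMul_iff, asAut_comp_zsIncl]

theorem primeOf_sPlaceSMul (g : G) (𝔪 : SPlace S L) :
    primeOf (sPlaceSMul S G g 𝔪) = primeSMul G g (primeOf 𝔪) := by
  apply HeightOneSpectrum.ext
  ext x
  rw [mem_primeSMul_iff, mem_primeOf_iff_intAS, mem_primeOf_iff_intAS, intAS_sPlaceSMul_iff,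
    asAut_asDiag]
  have h1 : g⁻¹ • x = 0 ↔ x = 0 := smul_eq_zero_iff_eq g⁻¹
  have h2 : (((g⁻¹ • x : 𝓞 L) : 𝓞 L) : L)⁻¹ = g⁻¹ • ((x : L)⁻¹) := by
    rw [smul_inv'']
    rfl
  rw [h1, h2]

end Equivariance

end Fermat.Agent.S55.G.PL1H597
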