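/-
S55 (Poitou–Tate), layer G, leaf G-PL1 (`PlacePrimeSpec`) — helper597.
Part 3: injectivity of `𝔪 ↦ primeOf 𝔪` (approximation argument).
-/
import Fermat.Agent.S55.G.PL1H597.Prime

set_option autoImplicit false
set_option linter.unusedSectionVars false
set_option linter.style.haveILetI false
set_option linter.unusedSimpArgs false
set_option backward.isDefEq.respectTransparency false

open scoped NumberField TensorProduct
open IsDedekindDomain Polynomial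

noncomputable section

namespace Fermat.Agent.S55.G.PL1H597

open Fermat.Agent.S55.G

variable {S : Finset Nat.Primes} {L : Type} [Field L] [NumberField L]

/-! ### `intA 𝔪 ∩ L` is the localisation of `𝓞 L` at `primeOf 𝔪` -/

lemma inv_mem_intA_of_notMem (𝔪 : SPlace S L) (d : 𝓞 L) (hd : d ∉ (primeOf 𝔪).asIdeal) :
    (toLoc S 𝔪 (d : L))⁻¹ ∈ intA 𝔪 := by
  rw [mem_primeOf_iff, mem_nonunits_iff_inv] at hd
  push Not at hd
  exact hd.2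

lemma toLoc_coe_mem_intA (𝔪 : SPlace S L) (a : 𝓞 L) : toLoc S 𝔪 (a : L) ∈ intA 𝔪 :=
  toLoc_mem_intA_of_isIntegral 𝔪 _ (NumberField.RingOfIntegers.isIntegral_coe a)

lemma toLoc_mem_intA_iff (𝔪 : SPlace S L) (x : L) :
    toLoc S 𝔪 x ∈ intA 𝔪 ↔
      ∃ (n d : 𝓞 L), d ∉ (primeOf 𝔪).asIdeal ∧ x * (d : L) = (n : L) := by
  constructor
  · intro hx
    obtain ⟨n, ⟨d, hd⟩, h | h⟩ :=
      (primeOf 𝔪).exists_primeCompl_mul_eq_or_mul_eq (K := L) x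
    · exact ⟨n, d, hd, h⟩
    · refine ⟨d, n, ?_, h⟩
      intro hn
      apply hd
      change d ∈ (primeOf 𝔪).asIdeal
      rw [mem_primeOf_iff, ValuationSubring.mem_nonunits_iff] at hn ⊢
      have h1 : toLoc S 𝔪 (d : L) = toLoc S 𝔪 x * toLoc S 𝔪 (n : L) := by
        rw [← map_mul]
        exact congrArg _ h.symm
      rw [h1, map_mul]
      have h2 : (intA 𝔪).valuation (toLoc S 𝔪 x) ≤ 1 := ((intA 𝔪).valuation_le_one_iff _).2 hx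
      calc (intA 𝔪).valuation (toLoc S 𝔪 x) * (intA 𝔪).valuation (toLoc S 𝔪 (n : L))
          ≤ 1 * (intA 𝔪).valuation (toLoc S 𝔪 (n : L)) := mul_le_mul_left h2 _
        _ < 1 := by rw [one_mul]; exact hn
  · rintro ⟨n, d, hd, h⟩
    have hd0 : toLoc S 𝔪 (d : L) ≠ 0 := by
      intro h0
      apply hd
      rw [mem_primeOf_iff, h0]
      exact (mem_nonunits_iff_inv _ _).2 (Or.inl rfl)
    have h1 : toLoc S 𝔪 x = toLoc S 𝔪 (n : L) * (toLoc S 𝔪 (d : L))⁻¹ := by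
      rw [eq_mul_inv_iff_mul_eq₀ hd0, ← map_mul, h]
    rw [h1]
    exact (intA 𝔪).mul_mem _ _ (toLoc_coe_mem_intA 𝔪 n) (inv_mem_intA_of_notMem 𝔪 d hd)

lemma toLoc_mem_intA_congr {𝔪 𝔪' : SPlace S L} (h : primeOf 𝔪 = primeOf 𝔪') (x : L) :
    toLoc S 𝔪 x ∈ intA 𝔪 ↔ toLoc S 𝔪' x ∈ intA 𝔪' := by
  rw [toLoc_mem_intA_iff, toLoc_mem_intA_iff, h]

/-! ### The lattice `𝓞 L ⊗ ℤ_q` -/

/-- The additive subgroup of `L ⊗ ℚ_S` generated by the `a ⊗ b` with `a` integral and `b`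
integral at `q`. -/
def R1 (q : S) : AddSubgroup (AS S L) :=
  AddSubgroup.closure
    {y | ∃ (a : 𝓞 L) (b : QS S), ‖QS.toPi S b q‖ ≤ 1 ∧ y = (a : L) ⊗ₜ[ℚ] b}

lemma exists_pow_mul_norm_le_one (q : Nat.Primes) (b : Qq q) :
    ∃ k : ℕ, ‖(((q : ℕ) : ℕ) : Qq q) ^ k * b‖ ≤ 1 := by
  haveI : Fact (q : ℕ).Prime := ⟨q.2⟩
  have hq1 : (1 : ℝ) < ((q : ℕ) : ℝ) := by exact_mod_cast q.2.one_lt
  have hq0 : (0 : ℝ) < ((q : ℕ) : ℝ) := by linarith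
  obtain ⟨k, hk⟩ := pow_unbounded_of_one_lt ‖b‖ hq1
  refine ⟨k, ?_⟩
  have h2 : ‖(((q : ℕ) : ℕ) : Qq q)‖ = ((q : ℕ) : ℝ)⁻¹ := Padic.norm_p
  rw [norm_mul, norm_pow, h2, inv_pow]
  rw [inv_mul_le_iff₀ (pow_pos hq0 k), mul_one]
  exact hk.le

lemma exists_zsmul_mem_R1 (q : S) (z : AS S L) : ∃ t : ℤ, t ≠ 0 ∧ t • z ∈ R1 (L := L) q := by
  induction z using TensorProduct.induction_on with
  | zero => exact ⟨1, one_ne_zero, by rw [smul_zero]; exact (R1 q).zero_mem⟩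
  | tmul x b =>
    obtain ⟨d, hd0, hd'⟩ := exists_integral_multiples ℤ ℚ ({x} : Finset L)
    have hd : IsIntegral ℤ (d • x) := hd' x (Finset.mem_singleton_self x)
    obtain ⟨k, hk⟩ := exists_pow_mul_norm_le_one q.1 (QS.toPi S b q)
    refine ⟨d * ((q.1 : ℕ) : ℤ) ^ k, mul_ne_zero hd0 (pow_ne_zero _ ?_), ?_⟩
    · exact_mod_cast q.1.2.ne_zero
    · apply AddSubgroup.subset_closure
      refine ⟨IsIntegralClosure.mk' (𝓞 L) (d • x) hd, (((q.1 : ℕ) : ℤ) ^ k) • b, ?_, ?_⟩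
      · have : QS.toPi S ((((q.1 : ℕ) : ℤ) ^ k) • b) q =
            (((q.1 : ℕ) : ℕ) : Qq q.1) ^ k * QS.toPi S b q := by
          rw [map_zsmul]
          simp [zsmul_eq_mul]
        rw [this]
        exact hk
      · rw [mul_smul, TensorProduct.smul_tmul', TensorProduct.smul_tmul',
          ← TensorProduct.smul_tmul]
        congr 1
        rw [smul_comm]
        congr 1
        exact (IsIntegralClosure.algebraMap_mk' (𝓞 L) (d • x) hd).symm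
  | add z₁ z₂ h₁ h₂ =>
    obtain ⟨t₁, ht₁, hz₁⟩ := h₁
    obtain ⟨t₂, ht₂, hz₂⟩ := h₂
    refine ⟨t₁ * t₂, mul_ne_zero ht₁ ht₂, ?_⟩
    rw [smul_add]
    refine (R1 q).add_mem ?_ ?_
    · rw [mul_comm, mul_smul]
      exact (R1 q).zsmul_mem hz₁ t₂
    · rw [mul_smul]
      exact (R1 q).zsmul_mem hz₂ t₁

/-- Approximation: modulo `q ^ k`, every element of the lattice is congruent to an element of
`𝓞 L`, simultaneously at all places over `q`. -/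
lemma exists_approx (q : S) (k : ℕ) (y : AS S L) (hy : y ∈ R1 (L := L) q) :
    ∃ y₀ : 𝓞 L, ∀ (𝔪 : SPlace S L), Over 𝔪 q → ∃ α ∈ intA 𝔪,
      LocField.mk S 𝔪 y - toLoc S 𝔪 (y₀ : L) = (((q.1 : ℕ) : ℕ) : LocField S 𝔪) ^ k * α := by
  haveI : Fact (q.1 : ℕ).Prime := ⟨q.1.2⟩
  induction hy using AddSubgroup.closure_induction with
  | mem y hy =>
    obtain ⟨a, b, hb, rfl⟩ := hy
    let bq : ℤ_[(q.1 : ℕ)] := ⟨QS.toPi S b q, hb⟩
    obtain ⟨c, hc⟩ := Ideal.mem_span_singleton'.1 (PadicInt.appr_spec k bq)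
    have hc' : ((c : ℤ_[(q.1 : ℕ)]) : Qq q.1) * (((q.1 : ℕ) : ℕ) : Qq q.1) ^ k =
        QS.toPi S b q - ((bq.appr k : ℕ) : Qq q.1) := by
      have := congrArg (fun u : ℤ_[(q.1 : ℕ)] => (u : ℚ_[(q.1 : ℕ)])) hc
      simpa [bq] using this
    refine ⟨(bq.appr k : ℕ) * a, fun 𝔪 h => ⟨toLoc S 𝔪 (a : L) * ofQq 𝔪 q h (c : Qq q.1), ?_, ?_⟩⟩
    · refine (intA 𝔪).mul_mem _ _ (toLoc_coe_mem_intA 𝔪 a) ?_
      rw [ofQq_mem_intA_iff]
      exact c.2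
    · rw [mk_tmul, ofQS_eq_ofQq h]
      have h1 : QS.toPi S b q = (c : Qq q.1) * (((q.1 : ℕ) : ℕ) : Qq q.1) ^ k +
          ((bq.appr k : ℕ) : Qq q.1) := by
        rw [hc']; ring
      rw [h1, map_add, map_mul, map_pow, map_natCast, map_natCast]
      push_cast
      rw [map_mul, map_natCast]
      ring
  | zero =>
    refine ⟨0, fun 𝔪 _ => ⟨0, (intA 𝔪).zero_mem, ?_⟩⟩
    simp
  | add y₁ y₂ _ _ h₁ h₂ =>
    obtain ⟨a₁, ha₁⟩ := h₁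
    obtain ⟨a₂, ha₂⟩ := h₂
    refine ⟨a₁ + a₂, fun 𝔪 h => ?_⟩
    obtain ⟨α₁, hα₁, e₁⟩ := ha₁ 𝔪 h
    obtain ⟨α₂, hα₂, e₂⟩ := ha₂ 𝔪 h
    refine ⟨α₁ + α₂, (intA 𝔪).add_mem _ _ hα₁ hα₂, ?_⟩
    have : LocField.mk S 𝔪 (y₁ + y₂) - toLoc S 𝔪 ((a₁ + a₂ : 𝓞 L) : L) =
        (LocField.mk S 𝔪 y₁ - toLoc S 𝔪 (a₁ : L)) + (LocField.mk S 𝔪 y₂ - toLoc S 𝔪 (a₂ : L)) := by
      push_cast
      rw [map_add, map_add]
      ring
    rw [this, e₁, e₂, mul_add]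
  | neg y _ h₁ =>
    obtain ⟨a₁, ha₁⟩ := h₁
    refine ⟨-a₁, fun 𝔪 h => ?_⟩
    obtain ⟨α₁, hα₁, e₁⟩ := ha₁ 𝔪 h
    refine ⟨-α₁, (intA 𝔪).neg_mem _ hα₁, ?_⟩
    have : LocField.mk S 𝔪 (-y) - toLoc S 𝔪 ((-a₁ : 𝓞 L) : L) =
        -(LocField.mk S 𝔪 y - toLoc S 𝔪 (a₁ : L)) := by
      push_cast
      rw [map_neg, map_neg]
      ring
    rw [this, e₁, mul_neg]

/-- An element of `L_𝔪` divisible by all powers of `q` in `intA 𝔪` is zero. -/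
lemma eq_zero_of_forall_pow_dvd (𝔪 : SPlace S L) (q : S) (h : Over 𝔪 q) (c : LocField S 𝔪)
    (hc : ∀ k : ℕ, ∃ α ∈ intA 𝔪, c = (((q.1 : ℕ) : ℕ) : LocField S 𝔪) ^ k * α) : c = 0 := by
  obtain ⟨hdvr, -, -⟩ := intA_spec 𝔪
  haveI := hdvr
  have hcA : c ∈ intA 𝔪 := by
    obtain ⟨α, hα, e⟩ := hc 0
    rw [e, pow_zero, one_mul]
    exact hα
  have hqA : (((q.1 : ℕ) : ℕ) : LocField S 𝔪) ∈ (intA 𝔪).nonunits := natCast_mem_nonunits 𝔪 q h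
  obtain ⟨hq1, hq2⟩ := ValuationSubring.mem_nonunits_iff_exists_mem_maximalIdeal.1 hqA
  have hmem : ∀ k : ℕ, (⟨c, hcA⟩ : intA 𝔪) ∈ IsLocalRing.maximalIdeal (intA 𝔪) ^ k := by
    intro k
    obtain ⟨α, hα, e⟩ := hc k
    have : (⟨c, hcA⟩ : intA 𝔪) = ⟨_, hq1⟩ ^ k * ⟨α, hα⟩ := by
      apply Subtype.ext
      simpa using e
    rw [this]
    exact Ideal.mul_mem_right _ _ (Ideal.pow_mem_pow hq2 k)
  have hbot : (⟨c, hcA⟩ : intA 𝔪) ∈ (⨅ k : ℕ, IsLocalRing.maximalIdeal (intA 𝔪) ^ k) :=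
    (Ideal.mem_iInf).2 hmem
  rw [Ideal.iInf_pow_eq_bot_of_isLocalRing _ (IsLocalRing.maximalIdeal.isMaximal _).ne_top,
    Ideal.mem_bot] at hbot
  exact congrArg Subtype.val hbot

/-- Two places with the same prime below them have the same kernel. -/
lemma le_of_primeOf_eq {𝔪 𝔪' : SPlace S L} (h : primeOf 𝔪 = primeOf 𝔪') :
    𝔪.asIdeal ≤ 𝔪'.asIdeal := by
  intro z hz
  set q := qAt 𝔪 with hq
  have hov : Over 𝔪 q := over_qAt 𝔪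
  have hov' : Over 𝔪' q := by
    rw [over_iff_mem, ← h, ← over_iff_mem]
    exact hov
  obtain ⟨t, ht0, hty⟩ := exists_zsmul_mem_R1 (L := L) q z
  have hmk0 : LocField.mk S 𝔪 (t • z) = 0 := by
    rw [LocField.mk_eq_zero_iff]
    exact 𝔪.asIdeal.toAddSubgroup.zsmul_mem hz t
  have hqne : (((q.1 : ℕ) : ℕ) : L) ≠ 0 := by
    exact_mod_cast q.1.2.ne_zero
  have key : LocField.mk S 𝔪' (t • z) = 0 := by
    apply eq_zero_of_forall_pow_dvd 𝔪' q hov'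
    intro k
    obtain ⟨y₀, hy₀⟩ := exists_approx q k (t • z) hty
    obtain ⟨α, hα, e⟩ := hy₀ 𝔪 hov
    obtain ⟨α', hα', e'⟩ := hy₀ 𝔪' hov'
    rw [hmk0, zero_sub] at e
    -- `y₀ / q ^ k` is integral at `𝔪`, hence at `𝔪'`
    have hx : toLoc S 𝔪 ((y₀ : L) / (((q.1 : ℕ) : ℕ) : L) ^ k) ∈ intA 𝔪 := by
      have hqk : (((q.1 : ℕ) : ℕ) : LocField S 𝔪) ^ k ≠ 0 := by
        apply pow_ne_zero
        exact_mod_cast q.1.2.ne_zero
      have : toLoc S 𝔪 ((y₀ : L) / (((q.1 : ℕ) : ℕ) : L) ^ k) = -α := by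
        rw [map_div₀, map_pow, map_natCast, div_eq_iff hqk, mul_comm, mul_neg, ← e, neg_neg]
      rw [this]
      exact (intA 𝔪).neg_mem _ hα
    rw [toLoc_mem_intA_congr h] at hx
    refine ⟨α' + toLoc S 𝔪' ((y₀ : L) / (((q.1 : ℕ) : ℕ) : L) ^ k),
      (intA 𝔪').add_mem _ _ hα' hx, ?_⟩
    have hqk : (((q.1 : ℕ) : ℕ) : LocField S 𝔪') ^ k ≠ 0 := by
      apply pow_ne_zero
      exact_mod_cast q.1.2.ne_zero
    rw [mul_add, ← e', map_div₀, map_pow, map_natCast, mul_div_cancel₀ _ hqk]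
    ring
  rw [← LocField.mk_eq_zero_iff]
  have h1 : LocField.mk S 𝔪' (t • z) = (t : LocField S 𝔪') * LocField.mk S 𝔪' z := by
    rw [zsmul_eq_mul, map_mul, map_intCast]
  rw [h1] at key
  rcases mul_eq_zero.1 key with h0 | h0
  · exact absurd (by exact_mod_cast h0) ht0
  · exact h0

theorem primeOf_injective : Function.Injective (primeOf : SPlace S L → HeightOneSpectrum (𝓞 L)) := by
  intro 𝔪 𝔪' h
  apply MaximalSpectrum.ext
  exact 𝔪.isMaximal.eq_of_le 𝔪'.isMaximal.ne_top (le_of_primeOf_eq h)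

end Fermat.Agent.S55.G.PL1H597
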