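/-
S55 (Poitou–Tate), layer G, leaf G-PL1 (`PlacePrimeSpec`) — helper597.
Part 4: surjectivity of `𝔪 ↦ primeOf 𝔪` onto the primes above `S` (integrality argument).
-/
import Fermat.Agent.S55.G.PL1H597.Prime

set_option autoImplicit false
set_option linter.unusedSectionVars false
set_option linter.style.haveILetI false
set_option linter.unusedSimpArgs false
set_option backward.isDefEq.respectTransparency false

open scoped NumberField TensorProduct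
open IsDedekindDomain Polynomial

noncomputable section

namespace Fermat.Agent.S55.G.PL1H597

open Fermat.Agent.S55.G

variable {S : Finset Nat.Primes} {L : Type} [Field L] [NumberField L]

/-! ### `L ⊗ ℚ_S` is Artinian -/

instance isArtinianRing_QS : IsArtinianRing (QS S) :=
  inferInstanceAs (IsArtinianRing (∀ q : S, Qq q.1))

instance isArtinianRing_AS : IsArtinianRing (AS S L) := by
  haveI : IsArtinianRing (QS S ⊗[ℚ] L) := IsArtinianRing.of_finite (QS S) (QS S ⊗[ℚ] L)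
  exact Function.Surjective.isArtinianRing
    (f := ((Algebra.TensorProduct.comm ℚ (QS S) L : (QS S ⊗[ℚ] L) ≃ₐ[ℚ] (L ⊗[ℚ] QS S)) :
      (QS S ⊗[ℚ] L) →+* (L ⊗[ℚ] QS S)))
    (Algebra.TensorProduct.comm ℚ (QS S) L).surjective

instance finite_SPlace : Finite (SPlace S L) :=
  inferInstanceAs (Finite (MaximalSpectrum (AS S L)))

/-! ### Global integrality from local integrality -/

lemma exists_monic_eval₂_eq_zero (u : AS S L) (h : ∀ 𝔪 : SPlace S L, IntAS 𝔪 u) :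
    ∃ P : (ZS S)[X], P.Monic ∧ Polynomial.eval₂ (zsIncl S L) u P = 0 := by
  classical
  haveI : Fintype (SPlace S L) := Fintype.ofFinite _
  choose P hP hPu using h
  let Q : (ZS S)[X] := ∏ 𝔪 : SPlace S L, P 𝔪
  have hQ : Q.Monic := Polynomial.monic_prod_of_monic _ _ (fun 𝔪 _ => hP 𝔪)
  have hQu : Polynomial.eval₂ (zsIncl S L) u Q ∈ Ideal.jacobson (⊥ : Ideal (AS S L)) := by
    rw [Ideal.jacobson, Ideal.mem_sInf]
    rintro J ⟨-, hJ⟩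
    have h1 : Polynomial.eval₂ (zsIncl S L) u Q =
        ∏ 𝔪 : SPlace S L, Polynomial.eval₂ (zsIncl S L) u (P 𝔪) :=
      Polynomial.eval₂_finsetProd _ _ _ _
    rw [h1]
    exact Ideal.mem_of_dvd _ (Finset.dvd_prod_of_mem _ (Finset.mem_univ (⟨J, hJ⟩ : SPlace S L)))
      (hPu ⟨J, hJ⟩)
  obtain ⟨n, hn⟩ := IsArtinianRing.isNilpotent_jacobson_bot (R := AS S L)
  refine ⟨Q ^ n, hQ.pow n, ?_⟩
  rw [Polynomial.eval₂_pow]
  have h2 := Ideal.pow_mem_pow hQu n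
  rw [hn] at h2
  exact h2

/-! ### The integral model `𝓞 L ⊗ ℤ_S` -/

variable (S L) in
/-- The comparison map `𝓞 L ⊗[ℤ] ℤ_S → L ⊗[ℚ] ℚ_S`. -/
def iotaT : (𝓞 L ⊗[ℤ] ZS S) →ₐ[ℤ] AS S L :=
  Algebra.TensorProduct.lift
    (((asDiag S L : L →ₐ[ℚ] AS S L) : L →+* AS S L).comp (algebraMap (𝓞 L) L)).toIntAlgHom
    (zsIncl S L).toIntAlgHom
    (fun _ _ => Commute.all _ _)

lemma iotaT_tmul (a : 𝓞 L) (z : ZS S) :
    iotaT S L (a ⊗ₜ[ℤ] z) = (a : L) ⊗ₜ[ℚ] (z : QS S) := by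
  simp [iotaT, zsIncl, asIncl]

instance flat_int_QS : Module.Flat ℤ (QS S) := Module.Flat.trans ℤ ℚ (QS S)

lemma iotaT_injective : Function.Injective (iotaT S L) := by
  let f : 𝓞 L →ₗ[ℤ] L := (Algebra.linearMap (𝓞 L) L).restrictScalars ℤ
  let g : ZS S →ₗ[ℤ] QS S := (ZS S).subtype.toIntAlgHom.toLinearMap
  have hf : Function.Injective f := NumberField.RingOfIntegers.coe_injective
  have hg : Function.Injective g := Subtype.val_injective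
  have h1 : Function.Injective (TensorProduct.map f g) :=
    TensorProduct.map_injective_of_flat_flat' f g hf hg
  let e : L ⊗[ℤ] QS S ≃ₗ[ℤ] L ⊗[ℚ] QS S :=
    TensorProduct.equivOfCompatibleSMul ℚ ℤ ℤ L (QS S)
  have h2 : ∀ t, iotaT S L t = e (TensorProduct.map f g t) := by
    intro t
    induction t using TensorProduct.induction_on with
    | zero => simp
    | tmul a z =>
      rw [iotaT_tmul, TensorProduct.map_tmul]
      rfl
    | add t₁ t₂ h₁ h₂ => rw [map_add, map_add, map_add, h₁, h₂]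
  intro t₁ t₂ h
  rw [h2, h2] at h
  exact h1 (e.injective h)

/-- The residue map `ℤ_S → ℤ_q`. -/
def zsToPadicInt (q : S) : letI : Fact (q.1 : ℕ).Prime := ⟨q.1.2⟩; ZS S →+* ℤ_[(q.1 : ℕ)] :=
  letI : Fact (q.1 : ℕ).Prime := ⟨q.1.2⟩
  { toFun := fun z => ⟨QS.toPi S z.1 q, (mem_Zq _ _).1 (z.2 q)⟩
    map_one' := rfl
    map_mul' := fun _ _ => rfl
    map_zero' := rfl
    map_add' := fun _ _ => rfl }

/-- The residue map `ℤ_S → 𝓞 L ⧸ w` for a prime `w` above `q ∈ S`. -/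
def zsRes (w : HeightOneSpectrum (𝓞 L)) (q : S)
    (hq : (((q.1 : ℕ) : ℕ) : 𝓞 L) ∈ w.asIdeal) : ZS S →+* (𝓞 L ⧸ w.asIdeal) :=
  letI : Fact (q.1 : ℕ).Prime := ⟨q.1.2⟩
  haveI : CharP (𝓞 L ⧸ w.asIdeal) (q.1 : ℕ) := by
    haveI : Nontrivial (𝓞 L ⧸ w.asIdeal) := Ideal.Quotient.nontrivial_iff.2 w.isPrime.ne_top
    rw [CharP.charP_iff_prime_eq_zero q.1.2]
    have : (((q.1 : ℕ) : ℕ) : 𝓞 L ⧸ w.asIdeal) =
        Ideal.Quotient.mk w.asIdeal (((q.1 : ℕ) : ℕ) : 𝓞 L) := (map_natCast _ _).symm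
    rw [this, Ideal.Quotient.eq_zero_iff_mem]
    exact hq
  ((ZMod.castHom (dvd_refl (q.1 : ℕ)) (𝓞 L ⧸ w.asIdeal)).comp PadicInt.toZMod).comp
    (zsToPadicInt q)

/-- The reduction map `𝓞 L ⊗[ℤ] ℤ_S → 𝓞 L ⧸ w` for a prime `w` above `q ∈ S`. -/
def phiW (w : HeightOneSpectrum (𝓞 L)) (q : S)
    (hq : (((q.1 : ℕ) : ℕ) : 𝓞 L) ∈ w.asIdeal) : (𝓞 L ⊗[ℤ] ZS S) →ₐ[ℤ] (𝓞 L ⧸ w.asIdeal) :=
  Algebra.TensorProduct.lift (Ideal.Quotient.mk w.asIdeal).toIntAlgHom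
    (zsRes w q hq).toIntAlgHom (fun _ _ => Commute.all _ _)

lemma phiW_tmul_one (w : HeightOneSpectrum (𝓞 L)) (q : S)
    (hq : (((q.1 : ℕ) : ℕ) : 𝓞 L) ∈ w.asIdeal) (a : 𝓞 L) :
    phiW w q hq (a ⊗ₜ[ℤ] 1) = Ideal.Quotient.mk w.asIdeal a := by
  simp [phiW]

/-! ### Surjectivity -/

lemma exists_mem_notMem (w : HeightOneSpectrum (𝓞 L)) (hab : IsAbove S L w)
    (hw : ∀ 𝔪 : SPlace S L, primeOf 𝔪 ≠ w) :
    ∃ x : 𝓞 L, x ∈ w.asIdeal ∧ x ≠ 0 ∧ ∀ 𝔪 : SPlace S L, x ∉ (primeOf 𝔪).asIdeal := by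
  classical
  haveI : Fintype (SPlace S L) := Fintype.ofFinite _
  by_cases hne : Nonempty (SPlace S L)
  · obtain ⟨𝔪₀⟩ := hne
    by_contra hcon
    push Not at hcon
    have hsub : ((w.asIdeal : Ideal (𝓞 L)) : Set (𝓞 L)) ⊆
        ⋃ 𝔪 ∈ ((Finset.univ : Finset (SPlace S L)) : Set (SPlace S L)),
          ((primeOf 𝔪).asIdeal : Set (𝓞 L)) := by
      intro x hx
      rcases eq_or_ne x 0 with rfl | hx0
      · exact Set.mem_biUnion (Finset.mem_coe.2 (Finset.mem_univ 𝔪₀)) (Ideal.zero_mem _)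
      · obtain ⟨𝔪, h𝔪⟩ := hcon x hx hx0
        exact Set.mem_biUnion (Finset.mem_coe.2 (Finset.mem_univ 𝔪)) h𝔪
    obtain ⟨𝔪, -, hle⟩ := (Ideal.subset_union_prime (f := fun 𝔪 : SPlace S L => (primeOf 𝔪).asIdeal)
      𝔪₀ 𝔪₀ (fun 𝔪 _ _ _ => (primeOf 𝔪).isPrime)).1 hsub
    apply hw 𝔪
    apply HeightOneSpectrum.ext
    exact (w.isMaximal.eq_of_le (primeOf 𝔪).isPrime.ne_top hle).symm
  · obtain ⟨q, hqS, hq⟩ := hab
    refine ⟨((q : ℕ) : 𝓞 L), hq, ?_, fun 𝔪 => absurd ⟨𝔪⟩ hne⟩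
    exact_mod_cast q.2.ne_zero

theorem exists_primeOf_eq (w : HeightOneSpectrum (𝓞 L)) (hab : IsAbove S L w) :
    ∃ 𝔪 : SPlace S L, primeOf 𝔪 = w := by
  by_contra hcon
  push Not at hcon
  obtain ⟨x, hxw, hx0, hx⟩ := exists_mem_notMem w hab hcon
  obtain ⟨q, hqS, hq⟩ := hab
  have hxL : (x : L) ≠ 0 := fun h => hx0 (NumberField.RingOfIntegers.coe_eq_zero_iff.1 h)
  -- local integrality of `x⁻¹`
  have hint : ∀ 𝔪 : SPlace S L, IntAS 𝔪 (asDiag S L ((x : L)⁻¹)) := by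
    intro 𝔪
    have := hx 𝔪
    rw [mem_primeOf_iff_intAS] at this
    push Not at this
    exact this.2
  obtain ⟨P, hP, hPu⟩ := exists_monic_eval₂_eq_zero _ hint
  -- pass to the reversed polynomial
  have h1 : asDiag S L (x : L) * asDiag S L ((x : L)⁻¹) = 1 := by
    rw [← map_mul, mul_inv_cancel₀ hxL, map_one]
  letI inv : Invertible (asDiag S L ((x : L)⁻¹)) :=
    ⟨asDiag S L (x : L), h1, by rw [mul_comm]; exact h1⟩
  have h2 : Polynomial.eval₂ (zsIncl S L) (asDiag S L (x : L)) P.reverse = 0 :=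
    (Polynomial.eval₂_reverse_eq_zero_iff (zsIncl S L) (asDiag S L ((x : L)⁻¹)) P).2 hPu
  -- lift the identity to `𝓞 L ⊗ ℤ_S`
  let incl : ZS S →+* (𝓞 L ⊗[ℤ] ZS S) :=
    (Algebra.TensorProduct.includeRight : ZS S →ₐ[ℤ] (𝓞 L ⊗[ℤ] ZS S))
  let τ : 𝓞 L ⊗[ℤ] ZS S := Polynomial.eval₂ incl (x ⊗ₜ[ℤ] 1) P.reverse
  have hτ : τ = 0 := by
    apply iotaT_injective
    rw [map_zero]
    have h3 : ((iotaT S L : (𝓞 L ⊗[ℤ] ZS S) →+* AS S L)).comp incl = zsIncl S L := by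
      ext z
      change iotaT S L ((1 : 𝓞 L) ⊗ₜ[ℤ] z) = _
      rw [iotaT_tmul]
      simp [zsIncl, asIncl]
    have h4 : iotaT S L (x ⊗ₜ[ℤ] (1 : ZS S)) = asDiag S L (x : L) := by
      rw [iotaT_tmul]
      rfl
    have := Polynomial.hom_eval₂ P.reverse incl
      ((iotaT S L : (𝓞 L ⊗[ℤ] ZS S) →+* AS S L)) (x ⊗ₜ[ℤ] 1)
    rw [h3] at this
    change iotaT S L τ = 0
    change iotaT S L τ = _ at this
    rw [this]
    change Polynomial.eval₂ (zsIncl S L) (iotaT S L (x ⊗ₜ[ℤ] (1 : ZS S))) P.reverse = 0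
    rw [h4]
    exact h2
  -- reduce modulo `w`
  have h5 := Polynomial.hom_eval₂ P.reverse incl
      ((phiW w ⟨q, hqS⟩ hq : (𝓞 L ⊗[ℤ] ZS S) →+* (𝓞 L ⧸ w.asIdeal))) (x ⊗ₜ[ℤ] 1)
  change phiW w ⟨q, hqS⟩ hq τ = Polynomial.eval₂ _ (phiW w ⟨q, hqS⟩ hq (x ⊗ₜ[ℤ] 1)) _ at h5
  rw [hτ, map_zero, phiW_tmul_one, Ideal.Quotient.eq_zero_iff_mem.2 hxw,
    Polynomial.eval₂_at_zero, Polynomial.coeff_zero_reverse, hP.leadingCoeff, map_one] at h5
  haveI : Nontrivial (𝓞 L ⧸ w.asIdeal) := Ideal.Quotient.nontrivial_iff.2 w.isPrime.ne_top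
  exact zero_ne_one h5

end Fermat.Agent.S55.G.PL1H597
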