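/-
S55 (Poitou–Tate), layer G, leaf G-PL1 — helper597.

`placePrimeSpec : PlacePrimeSpec` (interface `Fermat/Agent/S55/G/Spec.lean`), UNCONDITIONAL:
the places of `L` above `S` in the tensor model (maximal ideals of `L ⊗[ℚ] ℚ_S`) are in
`G`-equivariant bijection with the primes of `𝓞 L` above `S`, compatibly with integrality.

* `primeOf 𝔪`            : the prime below `𝔪` (`Prime.lean`);
* `primeOf_sPlaceSMul`   : Galois equivariance (`Prime.lean`);
* `primeOf_injective`    : injectivity, by approximation (`Inj.lean`);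
* `exists_primeOf_eq`    : surjectivity, by integrality over `ℤ_S` (`Surj.lean`).

By-products (`Base.lean`, `Surj.lean`): `finite_SPlace : Finite (SPlace S L)`,
`instIsLocalFldLocField : L.IsLocalFld (LocField S 𝔪)` (i.e. `LocFieldSpec`, leaf G-PL0),
`intA 𝔪` (the ring of integers of `L_𝔪`), `qAt 𝔪` (the rational prime below `𝔪`),
`ofQq`, `finiteDimensional_locField`, `toLoc_mem_intA_iff`.
-/
import Fermat.Agent.S55.G.PL1H597.Inj
import Fermat.Agent.S55.G.PL1H597.Surj

set_option autoImplicit false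

open scoped NumberField TensorProduct
open IsDedekindDomain

noncomputable section

namespace Fermat.Agent.S55.G.PL1H597

open Fermat.Agent.S55.G

/-- The bijection between places above `S` and primes above `S`. -/
def placePrimeEquiv (S : Finset Nat.Primes) (L : Type) [Field L] [NumberField L] :
    SPlace S L ≃ PrimeIn S L :=
  Equiv.ofBijective (fun 𝔪 => (⟨primeOf 𝔪, isAbove_primeOf 𝔪⟩ : PrimeIn S L))
    ⟨fun _ _ h => primeOf_injective (congrArg Subtype.val h),
      fun w => by
        obtain ⟨𝔪, h𝔪⟩ := exists_primeOf_eq w.1 w.2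
        exact ⟨𝔪, Subtype.ext h𝔪⟩⟩

@[simp] lemma placePrimeEquiv_apply (S : Finset Nat.Primes) (L : Type) [Field L] [NumberField L]
    (𝔪 : SPlace S L) : (placePrimeEquiv S L 𝔪).1 = primeOf 𝔪 := rfl

/-- **G-PL1.** -/
theorem placePrimeSpec : PlacePrimeSpec := by
  intro S L _ _
  refine ⟨placePrimeEquiv S L, ?_, ?_⟩
  · intro G _ _ g 𝔪
    exact primeOf_sPlaceSMul G g 𝔪
  · intro 𝔪 A hA x
    exact mem_primeOf_iff_of_isLocalRingOfIntegers 𝔪 A hA x

/-- **G-PL0** (by-product). -/
theorem locFieldSpec : LocFieldSpec := by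
  intro S L _ _
  exact ⟨finite_SPlace, fun 𝔪 => instIsLocalFldLocField 𝔪⟩

end Fermat.Agent.S55.G.PL1H597
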